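/-
PROJECT U (S34), ROUTE G (helper2): THE VALUE AT A PLACE OF DEGREE ONE AS A RING HOMOMORPHISM, AND
THE COMPOSITE VALUATION RING `red⁻¹(O_Q)`.

* `valueAt Q hQ : Q.toValuationSubring →+* k` for a place `Q` of `Fk/k` with `Q.deg = 1`,
  `valueAt_eq_iff : valueAt Q hQ u = γ ↔ Q.adicValuation (u - γ) < 1`;
* `compVal O red hred Q : ValuationSubring FL` for a valuation subring `O` of `FL` with a
  reduction `red : O →+* Fk` whose kernel is the maximal ideal (`hred`): the functions of `O`
  whose reduction is regular at `Q` (the composite place);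
* `compEval O red hred Q hQ : (compVal O red hred Q).toSubring →+* k`, the value of the reduction
  at `Q`;
* `mem_and_ev_eq_iff` : for `y ∈ O`: `y ∈ compVal ∧ ev … y = γ ↔ red y = γ ∨ 0 < Q.ord (red y - γ)`
  (the right-hand side is `NodalDefs.HasValue Q (red y) γ` / `S18.CoreOrd.exists_value`);
* `inv_mem_of_ev_ne_zero` (locality) and `map_mem_and_ev_eq` (invariance under an automorphism
  which is trivial on the residue field): the hypotheses `loc` / `hs` of `S34/GlueG.lean`.
-/
import Mathlib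
import Fermat.Agent.S18.CoreOrd
import Fermat.Agent.S34.GlueG

set_option autoImplicit false

noncomputable section

namespace Fermat.Agent.S34.GlueG.ValueAt

open AlgebraicCurve Fermat.Agent.S24.Ord Fermat.Agent.S18.CoreOrd Fermat.Agent.S34.GlueG

variable {k : Type*} {Fk : Type*} [Field k] [Field Fk] [Algebra k Fk]

/-! ### The value at a place of degree one -/

theorem bijective_algebraMap_residueField (Q : Place k Fk) (hQ : Q.deg = 1) :
    Function.Bijective (algebraMap k Q.ResidueField) := by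
  refine ⟨(algebraMap k Q.ResidueField).injective, fun w => ?_⟩
  have h1 : Module.finrank k Q.ResidueField = 1 := hQ
  obtain ⟨c, hc⟩ := (finrank_eq_one_iff_of_nonzero' (1 : Q.ResidueField) one_ne_zero).mp h1 w
  exact ⟨c, by rw [← hc, Algebra.smul_def, mul_one]⟩

/-- the value at a place of degree one -/
def valueAt (Q : Place k Fk) (hQ : Q.deg = 1) : Q.toValuationSubring →+* k :=
  ((RingEquiv.ofBijective (algebraMap k Q.ResidueField)
    (bijective_algebraMap_residueField Q hQ)).symm : Q.ResidueField →+* k).comp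
    (IsLocalRing.residue Q.toValuationSubring)

theorem algebraMap_valueAt (Q : Place k Fk) (hQ : Q.deg = 1) (u : Q.toValuationSubring) :
    algebraMap k Q.ResidueField (valueAt Q hQ u) = IsLocalRing.residue Q.toValuationSubring u := by
  unfold valueAt
  exact (RingEquiv.ofBijective (algebraMap k Q.ResidueField)
    (bijective_algebraMap_residueField Q hQ)).apply_symm_apply _

theorem valueAt_eq_iff (Q : Place k Fk) (hQ : Q.deg = 1) (u : Q.toValuationSubring) (γ : k) :
    valueAt Q hQ u = γ ↔ Q.adicValuation ((u : Fk) - algebraMap k Fk γ) < 1 := by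
  have h1 : valueAt Q hQ u = γ ↔
      IsLocalRing.residue Q.toValuationSubring u = algebraMap k Q.ResidueField γ := by
    rw [← algebraMap_valueAt Q hQ u]
    exact ⟨fun h => by rw [h], fun h => (algebraMap k Q.ResidueField).injective h⟩
  rw [h1]
  have h2 : algebraMap k Q.ResidueField γ =
      IsLocalRing.residue Q.toValuationSubring (algebraMap k Q.toValuationSubring γ) := rfl
  rw [h2, ← sub_eq_zero, ← map_sub, IsLocalRing.residue_eq_zero_iff, mem_maximalIdeal_iff]
  rfl

theorem valueAt_algebraMap (Q : Place k Fk) (hQ : Q.deg = 1) (γ : k) :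
    valueAt Q hQ (algebraMap k Q.toValuationSubring γ) = γ := by
  rw [valueAt_eq_iff]
  simp

theorem valueAt_eq_zero_iff (Q : Place k Fk) (hQ : Q.deg = 1) (u : Q.toValuationSubring) :
    valueAt Q hQ u = 0 ↔ Q.adicValuation (u : Fk) < 1 := by
  rw [valueAt_eq_iff, map_zero, sub_zero]

/-- `HasValue` in `ord` language -/
theorem valueAt_eq_iff_ord (Q : Place k Fk) (hQ : Q.deg = 1) (u : Q.toValuationSubring) (γ : k) :
    valueAt Q hQ u = γ ↔
      ((u : Fk) = algebraMap k Fk γ ∨ 0 < Q.ord ((u : Fk) - algebraMap k Fk γ)) := by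
  rw [valueAt_eq_iff]
  by_cases h : (u : Fk) = algebraMap k Fk γ
  · simp [h]
  · rw [or_iff_right h, ord_pos_iff Q (sub_ne_zero.mpr h)]

/-- a function with a value at `Q` is regular at `Q` -/
theorem mem_of_hasValue (Q : Place k Fk) {φ : Fk} {γ : k}
    (h : φ = algebraMap k Fk γ ∨ 0 < Q.ord (φ - algebraMap k Fk γ)) :
    φ ∈ Q.toValuationSubring := by
  rcases h with h | h
  · rw [h]; exact Q.algebraMap_mem' γ
  · have hne : φ - algebraMap k Fk γ ≠ 0 := by
      intro h0
      rw [h0, Place.ord_zero] at h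
      exact lt_irrefl _ h
    have h1 : φ - algebraMap k Fk γ ∈ Q.toValuationSubring :=
      (mem_iff Q _).mpr (le_of_lt ((ord_pos_iff Q hne).mp h))
    have := Q.toValuationSubring.add_mem _ _ h1 (Q.algebraMap_mem' γ)
    simpa using this

/-! ### The composite valuation ring -/

variable {FL : Type*} [Field FL]

/-- the composite valuation ring `red⁻¹(O_Q)` -/
def compVal (O : ValuationSubring FL) (red : O →+* Fk) (hred : ∀ u : O, red u = 0 ↔ ¬ IsUnit u)
    (Q : Place k Fk) : ValuationSubring FL where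
  carrier := {y | ∃ h : y ∈ O, red ⟨y, h⟩ ∈ Q.toValuationSubring}
  mul_mem' := by
    rintro a b ⟨ha, ha'⟩ ⟨hb, hb'⟩
    refine ⟨O.mul_mem _ _ ha hb, ?_⟩
    have : (⟨a * b, O.mul_mem _ _ ha hb⟩ : O) = ⟨a, ha⟩ * ⟨b, hb⟩ := rfl
    rw [this, map_mul]
    exact Q.toValuationSubring.mul_mem _ _ ha' hb'
  one_mem' := ⟨O.one_mem, by
    have : (⟨1, O.one_mem⟩ : O) = 1 := rfl
    rw [this, map_one]
    exact Q.toValuationSubring.one_mem⟩
  add_mem' := by
    rintro a b ⟨ha, ha'⟩ ⟨hb, hb'⟩
    refine ⟨O.add_mem _ _ ha hb, ?_⟩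
    have : (⟨a + b, O.add_mem _ _ ha hb⟩ : O) = ⟨a, ha⟩ + ⟨b, hb⟩ := rfl
    rw [this, map_add]
    exact Q.toValuationSubring.add_mem _ _ ha' hb'
  zero_mem' := ⟨O.zero_mem, by
    have : (⟨0, O.zero_mem⟩ : O) = 0 := rfl
    rw [this, map_zero]
    exact Q.toValuationSubring.zero_mem⟩
  neg_mem' := by
    rintro a ⟨ha, ha'⟩
    refine ⟨O.neg_mem _ ha, ?_⟩
    have : (⟨-a, O.neg_mem _ ha⟩ : O) = -⟨a, ha⟩ := rfl
    rw [this, map_neg]
    exact Q.toValuationSubring.neg_mem _ ha'
  mem_or_inv_mem' := by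
    intro y
    -- non-units of `O` reduce to zero
    have key : ∀ z : FL, ∀ hz : z ∈ O, ¬ IsUnit (⟨z, hz⟩ : O) →
        ∃ h : z ∈ O, red ⟨z, h⟩ ∈ Q.toValuationSubring := fun z hz hnu =>
      ⟨hz, by rw [(hred ⟨z, hz⟩).mpr hnu]; exact Q.toValuationSubring.zero_mem⟩
    rcases O.mem_or_inv_mem y with hy | hy
    · by_cases hu : IsUnit (⟨y, hy⟩ : O)
      · -- a unit of `O`
        obtain ⟨u, hu'⟩ := hu
        have hyi : y⁻¹ ∈ O := by
          have h1 : ((u⁻¹ : Oˣ) : O) * ⟨y, hy⟩ = 1 := by rw [← hu']; exact u.inv_mul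
          have h2 : (((u⁻¹ : Oˣ) : O) : FL) * y = 1 := by
            have := congrArg (fun z : O => (z : FL)) h1
            simpa using this
          have : y⁻¹ = (((u⁻¹ : Oˣ) : O) : FL) := by
            rw [eq_comm, ← mul_eq_one_iff_eq_inv₀]
            · exact h2
            · rintro rfl
              rw [mul_zero] at h2
              exact zero_ne_one h2
          rw [this]
          exact ((u⁻¹ : Oˣ) : O).2
        have hmul : red ⟨y, hy⟩ * red ⟨y⁻¹, hyi⟩ = 1 := by
          rw [← map_mul]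
          have : (⟨y, hy⟩ : O) * ⟨y⁻¹, hyi⟩ = 1 := by
            apply Subtype.ext
            have hy0 : y ≠ 0 := by
              rintro rfl
              have h0 : (⟨0, hy⟩ : O) = 0 := rfl
              rw [h0] at hu'
              exact (hu' ▸ u.isUnit).ne_zero rfl
            show y * y⁻¹ = 1
            exact mul_inv_cancel₀ hy0
          rw [this, map_one]
        rcases Q.toValuationSubring.mem_or_inv_mem (red ⟨y, hy⟩) with h | h
        · exact Or.inl ⟨hy, h⟩
        · right
          refine ⟨hyi, ?_⟩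
          have : red ⟨y⁻¹, hyi⟩ = (red ⟨y, hy⟩)⁻¹ := eq_inv_of_mul_eq_one_right hmul
          rw [this]
          exact h
      · exact Or.inl (key y hy hu)
    · by_cases hu : IsUnit (⟨y⁻¹, hy⟩ : O)
      · -- then `y ∈ O` as well; reduce to the first case by symmetry
        obtain ⟨u, hu'⟩ := hu
        have hyy : y ∈ O := by
          have h1 : ((u⁻¹ : Oˣ) : O) * ⟨y⁻¹, hy⟩ = 1 := by rw [← hu']; exact u.inv_mul
          have h2 : (((u⁻¹ : Oˣ) : O) : FL) * y⁻¹ = 1 := by
            have := congrArg (fun z : O => (z : FL)) h1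
            simpa using this
          have : y = (((u⁻¹ : Oˣ) : O) : FL) := by
            have h3 := (mul_eq_one_iff_eq_inv₀ (by
              intro h0
              rw [h0, mul_zero] at h2
              exact zero_ne_one h2)).mp h2
            rw [h3, inv_inv]
          rw [this]
          exact ((u⁻¹ : Oˣ) : O).2
        have hmul : red ⟨y, hyy⟩ * red ⟨y⁻¹, hy⟩ = 1 := by
          rw [← map_mul]
          have : (⟨y, hyy⟩ : O) * ⟨y⁻¹, hy⟩ = 1 := by
            apply Subtype.ext
            have hy0 : y ≠ 0 := by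
              rintro rfl
              have h0 : (⟨(0 : FL)⁻¹, hy⟩ : O) = 0 := Subtype.ext inv_zero
              rw [h0] at hu'
              exact (hu' ▸ u.isUnit).ne_zero rfl
            show y * y⁻¹ = 1
            exact mul_inv_cancel₀ hy0
          rw [this, map_one]
        rcases Q.toValuationSubring.mem_or_inv_mem (red ⟨y, hyy⟩) with h | h
        · exact Or.inl ⟨hyy, h⟩
        · right
          refine ⟨hy, ?_⟩
          have : red ⟨y⁻¹, hy⟩ = (red ⟨y, hyy⟩)⁻¹ := eq_inv_of_mul_eq_one_right hmul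
          rw [this]
          exact h
      · exact Or.inr (key y⁻¹ hy hu)

variable (O : ValuationSubring FL) (red : O →+* Fk) (hred : ∀ u : O, red u = 0 ↔ ¬ IsUnit u)
  (Q : Place k Fk)

theorem mem_compVal {y : FL} :
    y ∈ compVal O red hred Q ↔ ∃ h : y ∈ O, red ⟨y, h⟩ ∈ Q.toValuationSubring := Iff.rfl

theorem mem_of_mem_compVal {y : FL} (hy : y ∈ compVal O red hred Q) : y ∈ O := hy.1

/-- the reduction map `compVal → O_Q` -/
def compRed : (compVal O red hred Q).toSubring →+* Q.toValuationSubring where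
  toFun y := ⟨red ⟨y, y.2.1⟩, y.2.2⟩
  map_one' := Subtype.ext (by
    show red ⟨1, _⟩ = 1
    exact map_one red)
  map_mul' a b := Subtype.ext (by
    show red ⟨(a : FL) * b, _⟩ = red ⟨a, _⟩ * red ⟨b, _⟩
    rw [← map_mul]
    rfl)
  map_zero' := Subtype.ext (by
    show red ⟨0, _⟩ = 0
    exact map_zero red)
  map_add' a b := Subtype.ext (by
    show red ⟨(a : FL) + b, _⟩ = red ⟨a, _⟩ + red ⟨b, _⟩
    rw [← map_add]
    rfl)

/-- the value of the reduction at `Q` -/
def compEval (hQ : Q.deg = 1) : (compVal O red hred Q).toSubring →+* k :=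
  (valueAt Q hQ).comp (compRed O red hred Q)

theorem compEval_apply (hQ : Q.deg = 1) {y : FL} (hy : y ∈ compVal O red hred Q) :
    compEval O red hred Q hQ ⟨y, hy⟩ = valueAt Q hQ ⟨red ⟨y, hy.1⟩, hy.2⟩ := rfl

/-- **dictionary**: membership in the composite ring + value `γ` ⟺ `HasValue Q (red y) γ` -/
theorem mem_and_ev_eq_iff (hQ : Q.deg = 1) {y : FL} (hy : y ∈ O) (γ : k) :
    (y ∈ compVal O red hred Q ∧
        ev (compVal O red hred Q).toSubring (compEval O red hred Q hQ) y = γ) ↔
      (red ⟨y, hy⟩ = algebraMap k Fk γ ∨ 0 < Q.ord (red ⟨y, hy⟩ - algebraMap k Fk γ)) := by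
  constructor
  · rintro ⟨hm, hv⟩
    rw [ev_of_mem (show y ∈ (compVal O red hred Q).toSubring from hm), compEval_apply,
      valueAt_eq_iff_ord] at hv
    exact hv
  · intro h
    have hm : y ∈ compVal O red hred Q := ⟨hy, mem_of_hasValue Q h⟩
    refine ⟨hm, ?_⟩
    rw [ev_of_mem (show y ∈ (compVal O red hred Q).toSubring from hm), compEval_apply,
      valueAt_eq_iff_ord]
    exact h

/-- locality of the evaluation -/
theorem inv_mem_of_ev_ne_zero (hQ : Q.deg = 1) (x : FL) (hx : x ∈ compVal O red hred Q)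
    (hne : ev (compVal O red hred Q).toSubring (compEval O red hred Q hQ) x ≠ 0) :
    x⁻¹ ∈ compVal O red hred Q := by
  rw [ev_of_mem (show x ∈ (compVal O red hred Q).toSubring from hx), compEval_apply, ne_eq,
    valueAt_eq_zero_iff, not_lt] at hne
  obtain ⟨hxO, hxQ⟩ := hx
  -- `red x` is a unit of `O_Q`
  have hval : Q.adicValuation (red ⟨x, hxO⟩) = 1 := le_antisymm ((mem_iff Q _).mp hxQ) hne
  have hr0 : red ⟨x, hxO⟩ ≠ 0 := by
    intro h0
    rw [h0, map_zero] at hval
    exact zero_ne_one hval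
  have hu : IsUnit (⟨x, hxO⟩ : O) := by
    by_contra hnu
    exact hr0 ((hred _).mpr hnu)
  obtain ⟨u, hu'⟩ := hu
  have h1 : ((u⁻¹ : Oˣ) : O) * ⟨x, hxO⟩ = 1 := by rw [← hu']; exact u.inv_mul
  have h2 : (((u⁻¹ : Oˣ) : O) : FL) * x = 1 := by
    have := congrArg (fun z : O => (z : FL)) h1
    simpa using this
  have hx0 : x ≠ 0 := by
    rintro rfl
    rw [mul_zero] at h2
    exact zero_ne_one h2
  have hinv : x⁻¹ = (((u⁻¹ : Oˣ) : O) : FL) := by
    rw [eq_comm, ← mul_eq_one_iff_eq_inv₀ hx0]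
    exact h2
  have hxi : x⁻¹ ∈ O := by rw [hinv]; exact ((u⁻¹ : Oˣ) : O).2
  refine ⟨hxi, ?_⟩
  have hmul : red ⟨x⁻¹, hxi⟩ * red ⟨x, hxO⟩ = 1 := by
    rw [← map_mul]
    have : (⟨x⁻¹, hxi⟩ : O) * ⟨x, hxO⟩ = 1 := Subtype.ext (inv_mul_cancel₀ hx0)
    rw [this, map_one]
  have : red ⟨x⁻¹, hxi⟩ = (red ⟨x, hxO⟩)⁻¹ := eq_inv_of_mul_eq_one_left hmul
  rw [this, mem_iff, map_inv₀, hval, inv_one]

/-- invariance under an automorphism acting trivially on the residue field -/
theorem map_mem_and_ev_eq (hQ : Q.deg = 1) (s : FL ≃+* FL)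
    (hs : ∀ (y : FL) (h : y ∈ O), ∃ h' : s y ∈ O, red ⟨s y, h'⟩ = red ⟨y, h⟩)
    (y : FL) (hy : y ∈ compVal O red hred Q) :
    s y ∈ compVal O red hred Q ∧
      ev (compVal O red hred Q).toSubring (compEval O red hred Q hQ) (s y) =
        ev (compVal O red hred Q).toSubring (compEval O red hred Q hQ) y := by
  obtain ⟨h', he⟩ := hs y hy.1
  have hm : s y ∈ compVal O red hred Q := ⟨h', by rw [he]; exact hy.2⟩
  refine ⟨hm, ?_⟩
  rw [ev_of_mem (show s y ∈ (compVal O red hred Q).toSubring from hm),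
    ev_of_mem (show y ∈ (compVal O red hred Q).toSubring from hy), compEval_apply, compEval_apply]
  congr 1
  exact Subtype.ext he

end Fermat.Agent.S34.GlueG.ValueAt
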