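import Mathlib
import Fermat.Agent.S18.NonSpecial
import Fermat.Agent.S18.A.RiemannBasic

/-!
# PROJECT U (S34), Route G: evaluation at finitely many places is onto `L(D)` for `deg D` large

`k`-side only; language of `S18/NonSpecial` (`AlgebraicCurve.Place / Divisor / riemannRochSpace`,
`ell`, `sumPlaces`, `RiemannHyp`).

* `exists_dual_element` : for `Q ∈ T` an element of `L(D)` with value `1` at `Q` and vanishing at
  the other places of `T` (as soon as `ℓ` is exact in degrees `≥ deg D - #T`);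
* `eval_surjective_of_riemann_eq`, **`exists_eval_surjective`** : every family of values
  `t : T → k` is attained by some `y ∈ L(D)`;
* `evalLin D Q` : the `k`-linear evaluation `L(D) → k` at a place of degree one where `D ≤ 0`
  (`evalLin_spec`, `evalLin_eq_iff`), `evalFamily D a : L(D) →ₗ[k] (ι → k)`,
  `evalFamily_surjective_of_riemann_eq`, `exists_evalFamily_surjective`;
* the two-curve corollaries `exists_eval_surjective_pair` (existential form, with the dimension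
  formula `ℓ(D₁) + ℓ(D₂) = deg D₁ + deg D₂ + 2 - g₁ - g₂`) and `evalPair`,
  `exists_evalPair_surjective` (linear-map form on `L(D₁) × L(D₂)`);
* `glued D₁ D₂ a1 a2` : the pairs glued at the nodes (`mem_glued_iff`), and
  `exists_finrank_glued` : its dimension `deg D₁ + deg D₂ + 2 - g₁ - g₂ - δ` for large degrees.
-/

set_option autoImplicit false

noncomputable section

namespace Fermat.Agent.S34.GlueG.EvalSurj

open AlgebraicCurve Fermat.Agent.S18.NonSpecial Fermat.Agent.S24.Ord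

universe u v

variable {k : Type u} {κ : Type v} [Field k] [Field κ] [Algebra k κ]

/-! ### divisor bookkeeping -/

theorem sumPlaces_erase_add_single [DecidableEq (Place k κ)] {T : Finset (Place k κ)}
    {Q : Place k κ} (hQ : Q ∈ T) :
    sumPlaces (T.erase Q) + Finsupp.single Q 1 = sumPlaces T := by
  rw [← sumPlaces_insert (Finset.notMem_erase Q T), Finset.insert_erase hQ]

/-- a constant of valuation `< 1` at a place is zero -/
theorem eq_zero_of_adicValuation_algebraMap_lt_one (Q : Place k κ) {e : k}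
    (h : Q.adicValuation (algebraMap k κ e) < 1) : e = 0 := by
  by_contra he
  rw [adicValuation_algebraMap Q he] at h
  exact lt_irrefl _ h

/-- the value of a function at a place is unique -/
theorem eq_of_sub_lt_one (Q : Place k κ) {y : κ} {e e' : k}
    (h : Q.adicValuation (y - algebraMap k κ e) < 1)
    (h' : Q.adicValuation (y - algebraMap k κ e') < 1) : e = e' := by
  have h1 : Q.adicValuation (algebraMap k κ (e - e')) < 1 := by
    have h2 : algebraMap k κ (e - e') = (y - algebraMap k κ e') - (y - algebraMap k κ e) := by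
      rw [map_sub]; ring
    rw [h2]
    exact Valuation.map_sub_lt _ h' h
  exact sub_eq_zero.mp (eq_zero_of_adicValuation_algebraMap_lt_one Q h1)

/-- elements of `L(D)` are regular at the places where `D ≤ 0` -/
theorem adicValuation_le_one_of_mem_rr {D : Divisor k κ} {Q : Place k κ} (hDQ : D Q ≤ 0) {y : κ}
    (hy : y ∈ riemannRochSpace D) : Q.adicValuation y ≤ 1 := by
  rw [Q.adicValuation_le_one_iff]
  rcases (mem_riemannRochSpace_iff.mp hy) Q with h0 | h1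
  · exact Or.inl h0
  · exact Or.inr (by omega)

/-! ### dual elements -/

/-- **dual elements**: if `ℓ` is given by Riemann's formula in all degrees `≥ c` and
`deg D ≥ c + #T`, then for every `Q ∈ T` some `y ∈ L(D)` has value `1` at `Q` and vanishes at
the other places of `T`. -/
theorem exists_dual_element {g : ℕ} (hdeg1 : ∀ v : Place k κ, v.deg = 1) {c : ℤ}
    (hc : ∀ D : Divisor k κ, c ≤ Divisor.degree D → (ell D : ℤ) = Divisor.degree D + 1 - g)
    (D : Divisor k κ) (T : Finset (Place k κ)) (hDT : ∀ Q ∈ T, D Q = 0)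
    (hdeg : c + T.card ≤ Divisor.degree D) {Q : Place k κ} (hQ : Q ∈ T) :
    ∃ y ∈ riemannRochSpace D, Q.adicValuation (y - 1) < 1 ∧
      ∀ Q' ∈ T, Q' ≠ Q → Q'.adicValuation y < 1 := by
  classical
  set D₂ : Divisor k κ := D - sumPlaces T with hD₂
  set D₁ : Divisor k κ := D - sumPlaces (T.erase Q) with hD₁
  have hD₁₂ : D₂ + Finsupp.single Q 1 = D₁ := by
    rw [hD₂, hD₁, ← sumPlaces_erase_add_single hQ]
    abel
  have hcard : (T.erase Q).card + 1 = T.card := Finset.card_erase_add_one hQ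
  have hdeg₂ : Divisor.degree D₂ = Divisor.degree D - T.card := by
    rw [hD₂, map_sub, degree_sumPlaces hdeg1]
  have hdeg₁ : Divisor.degree D₁ = Divisor.degree D₂ + 1 := by
    rw [← hD₁₂, map_add, Divisor.degree_single, hdeg1 Q]
    simp
  have hell₂ := hc D₂ (by rw [hdeg₂]; linarith)
  have hell₁ := hc D₁ (by rw [hdeg₁, hdeg₂]; linarith)
  have hlt : ell D₂ < ell D₁ := by
    rw [hdeg₁] at hell₁
    omega
  have hle : D₂ ≤ D₁ := by
    rw [← hD₁₂]
    exact le_add_of_nonneg_right (single_nonneg Q)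
  -- an element of `L(D₁) \ L(D₂)`
  obtain ⟨y, hy, hy'⟩ : ∃ y ∈ riemannRochSpace D₁, y ∉ riemannRochSpace D₂ := by
    by_contra hcon
    push Not at hcon
    have heq : riemannRochSpace D₁ = riemannRochSpace D₂ :=
      le_antisymm hcon (riemannRochSpace_mono hle)
    unfold ell at hlt
    rw [heq] at hlt
    exact lt_irrefl _ hlt
  obtain ⟨hy0, hyQ⟩ := ord_lt_of_mem_of_not_mem (D := D₂) (Q := Q) (by rw [hD₁₂]; exact hy) hy'
  have hD₂Q : D₂ Q = -1 := by
    rw [hD₂, Finsupp.sub_apply, hDT Q hQ, sumPlaces_apply_of_mem hQ]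
    norm_num
  have hD₁Q : D₁ Q = 0 := by
    rw [hD₁, Finsupp.sub_apply, hDT Q hQ, sumPlaces_apply_of_not_mem (Finset.notMem_erase Q T)]
    norm_num
  have hord : ∀ v : Place k κ, -D₁ v ≤ v.ord y := fun v =>
    ((mem_riemannRochSpace_iff.mp hy) v).resolve_left hy0
  have hordQ : Q.ord y = 0 := by
    have h1 := hord Q
    rw [hD₁Q] at h1
    rw [hD₂Q] at hyQ
    omega
  have hyD : y ∈ riemannRochSpace D := by
    refine riemannRochSpace_mono ?_ hy
    rw [hD₁]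
    exact sub_le_self _ (sumPlaces_nonneg _)
  -- the value of `y` at `Q`
  have hreg : Q.adicValuation y ≤ 1 := Q.adicValuation_le_one_iff.mpr (Or.inr hordQ.ge)
  obtain ⟨e, he⟩ := Fermat.Agent.S18.A.Riemann.exists_sub_const_lt_one Q (hdeg1 Q) hreg
  have he0 : e ≠ 0 := by
    rintro rfl
    rw [map_zero, sub_zero, ← ord_pos_iff Q hy0, hordQ] at he
    exact lt_irrefl _ he
  have hval : ∀ v : Place k κ, v.adicValuation (algebraMap k κ e⁻¹) = 1 := fun v =>
    adicValuation_algebraMap v (inv_ne_zero he0)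
  refine ⟨e⁻¹ • y, Submodule.smul_mem _ _ hyD, ?_, fun Q' hQ' hne => ?_⟩
  · have h1 : e⁻¹ • y - 1 = algebraMap k κ e⁻¹ * (y - algebraMap k κ e) := by
      rw [Algebra.smul_def, mul_sub, ← map_mul, inv_mul_cancel₀ he0, map_one]
    rw [h1, map_mul, hval, one_mul]
    exact he
  · rw [Algebra.smul_def, map_mul, hval, one_mul, ← ord_pos_iff Q' hy0]
    have h1 := hord Q'
    have h2 : D₁ Q' = -1 := by
      rw [hD₁, Finsupp.sub_apply, hDT Q' hQ',
        sumPlaces_apply_of_mem (Finset.mem_erase.mpr ⟨hne, hQ'⟩)]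
      norm_num
    rw [h2] at h1
    omega

/-! ### surjectivity of the evaluation, existential form -/

/-- **evaluation is onto**, with an explicit constant `c` for Riemann's formula -/
theorem eval_surjective_of_riemann_eq {g : ℕ} (hdeg1 : ∀ v : Place k κ, v.deg = 1) {c : ℤ}
    (hc : ∀ D : Divisor k κ, c ≤ Divisor.degree D → (ell D : ℤ) = Divisor.degree D + 1 - g)
    (D : Divisor k κ) (T : Finset (Place k κ)) (hDT : ∀ Q ∈ T, D Q = 0)
    (hdeg : c + T.card ≤ Divisor.degree D) (t : Place k κ → k) :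
    ∃ y ∈ riemannRochSpace D, ∀ Q ∈ T, Q.adicValuation (y - algebraMap k κ (t Q)) < 1 := by
  classical
  have hex : ∀ Q : Place k κ, ∃ y : κ, Q ∈ T → (y ∈ riemannRochSpace D ∧
      Q.adicValuation (y - 1) < 1 ∧ ∀ Q' ∈ T, Q' ≠ Q → Q'.adicValuation y < 1) := by
    intro Q
    by_cases hQ : Q ∈ T
    · obtain ⟨y, h1, h2, h3⟩ := exists_dual_element hdeg1 hc D T hDT hdeg hQ
      exact ⟨y, fun _ => ⟨h1, h2, h3⟩⟩
    · exact ⟨0, fun h => absurd h hQ⟩
  choose y hy using hex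
  refine ⟨∑ Q ∈ T, t Q • y Q, Submodule.sum_mem _ fun Q hQ =>
    Submodule.smul_mem _ _ (hy Q hQ).1, fun Q₀ hQ₀ => ?_⟩
  have hsplit : ∑ Q ∈ T, t Q • y Q - algebraMap k κ (t Q₀) =
      ∑ Q ∈ T.erase Q₀, t Q • y Q + t Q₀ • (y Q₀ - 1) := by
    rw [← Finset.sum_erase_add _ _ hQ₀, Algebra.smul_def (t Q₀) (y Q₀ - 1), mul_sub, mul_one,
      ← Algebra.smul_def]
    ring
  rw [hsplit]
  have hle1 : ∀ a : k, Q₀.adicValuation (algebraMap k κ a) ≤ 1 :=
    fun a => Q₀.adicValuation_algebraMap_le_one a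
  refine Valuation.map_add_lt _ (Valuation.map_sum_lt _ one_ne_zero fun Q hQ => ?_) ?_
  · rw [Algebra.smul_def, map_mul]
    have h1 := (hy Q (Finset.mem_of_mem_erase hQ)).2.2 Q₀ hQ₀ (Finset.ne_of_mem_erase hQ).symm
    calc Q₀.adicValuation (algebraMap k κ (t Q)) * Q₀.adicValuation (y Q)
        ≤ 1 * Q₀.adicValuation (y Q) := mul_le_mul_left (hle1 _) _
      _ = Q₀.adicValuation (y Q) := one_mul _
      _ < 1 := h1
  · rw [Algebra.smul_def, map_mul]
    have h1 := (hy Q₀ hQ₀).2.1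
    calc Q₀.adicValuation (algebraMap k κ (t Q₀)) * Q₀.adicValuation (y Q₀ - 1)
        ≤ 1 * Q₀.adicValuation (y Q₀ - 1) := mul_le_mul_left (hle1 _) _
      _ = Q₀.adicValuation (y Q₀ - 1) := one_mul _
      _ < 1 := h1

/-- **evaluation at finitely many places is onto `L(D)` for `deg D` large**, from `RiemannHyp`
alone. -/
theorem exists_eval_surjective {g : ℕ} (h : RiemannHyp k κ g) :
    ∃ c : ℤ, ∀ (D : Divisor k κ) (T : Finset (Place k κ)), (∀ Q ∈ T, D Q = 0) →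
      c + T.card ≤ Divisor.degree D → ∀ t : Place k κ → k,
        ∃ y ∈ riemannRochSpace D, ∀ Q ∈ T, Q.adicValuation (y - algebraMap k κ (t Q)) < 1 := by
  obtain ⟨c, hc⟩ := h.riemann_eq
  exact ⟨c, fun D T hDT hdeg t => eval_surjective_of_riemann_eq h.deg_one hc D T hDT hdeg t⟩

/-! ### the linear evaluation maps -/

/-- the value at `Q` (a place of degree one with `D Q ≤ 0`) of an element of `L(D)` -/
def evalFun (D : Divisor k κ) (Q : Place k κ) (hQ : Q.deg = 1) (hDQ : D Q ≤ 0)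
    (y : riemannRochSpace D) : k :=
  Classical.choose (Fermat.Agent.S18.A.Riemann.exists_sub_const_lt_one Q hQ
    (adicValuation_le_one_of_mem_rr hDQ y.2))

theorem evalFun_spec (D : Divisor k κ) (Q : Place k κ) (hQ : Q.deg = 1) (hDQ : D Q ≤ 0)
    (y : riemannRochSpace D) :
    Q.adicValuation ((y : κ) - algebraMap k κ (evalFun D Q hQ hDQ y)) < 1 :=
  Classical.choose_spec (Fermat.Agent.S18.A.Riemann.exists_sub_const_lt_one Q hQ
    (adicValuation_le_one_of_mem_rr hDQ y.2))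

theorem evalFun_eq_iff (D : Divisor k κ) (Q : Place k κ) (hQ : Q.deg = 1) (hDQ : D Q ≤ 0)
    (y : riemannRochSpace D) (e : k) :
    evalFun D Q hQ hDQ y = e ↔ Q.adicValuation ((y : κ) - algebraMap k κ e) < 1 := by
  constructor
  · rintro rfl
    exact evalFun_spec D Q hQ hDQ y
  · intro h
    exact eq_of_sub_lt_one Q (evalFun_spec D Q hQ hDQ y) h

/-- the `k`-linear evaluation `L(D) → k` at a place `Q` of degree one with `D Q ≤ 0` -/
def evalLin (D : Divisor k κ) (Q : Place k κ) (hQ : Q.deg = 1) (hDQ : D Q ≤ 0) :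
    riemannRochSpace D →ₗ[k] k where
  toFun := evalFun D Q hQ hDQ
  map_add' y y' := by
    rw [evalFun_eq_iff]
    have h1 := evalFun_spec D Q hQ hDQ y
    have h2 := evalFun_spec D Q hQ hDQ y'
    have h3 : ((y + y' : riemannRochSpace D) : κ) -
        algebraMap k κ (evalFun D Q hQ hDQ y + evalFun D Q hQ hDQ y') =
        ((y : κ) - algebraMap k κ (evalFun D Q hQ hDQ y)) +
          ((y' : κ) - algebraMap k κ (evalFun D Q hQ hDQ y')) := by
      rw [map_add, Submodule.coe_add]; ring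
    rw [h3]
    exact Valuation.map_add_lt _ h1 h2
  map_smul' a y := by
    rw [evalFun_eq_iff, RingHom.id_apply]
    have h1 := evalFun_spec D Q hQ hDQ y
    have h3 : ((a • y : riemannRochSpace D) : κ) - algebraMap k κ (a • evalFun D Q hQ hDQ y) =
        algebraMap k κ a * ((y : κ) - algebraMap k κ (evalFun D Q hQ hDQ y)) := by
      rw [Submodule.coe_smul, Algebra.smul_def, smul_eq_mul, map_mul]; ring
    rw [h3, map_mul]
    calc Q.adicValuation (algebraMap k κ a) *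
          Q.adicValuation ((y : κ) - algebraMap k κ (evalFun D Q hQ hDQ y))
        ≤ 1 * Q.adicValuation ((y : κ) - algebraMap k κ (evalFun D Q hQ hDQ y)) :=
          mul_le_mul_left (Q.adicValuation_algebraMap_le_one a) _
      _ = Q.adicValuation ((y : κ) - algebraMap k κ (evalFun D Q hQ hDQ y)) := one_mul _
      _ < 1 := h1

theorem evalLin_spec (D : Divisor k κ) (Q : Place k κ) (hQ : Q.deg = 1) (hDQ : D Q ≤ 0)
    (y : riemannRochSpace D) :
    Q.adicValuation ((y : κ) - algebraMap k κ (evalLin D Q hQ hDQ y)) < 1 :=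
  evalFun_spec D Q hQ hDQ y

theorem evalLin_eq_iff (D : Divisor k κ) (Q : Place k κ) (hQ : Q.deg = 1) (hDQ : D Q ≤ 0)
    (y : riemannRochSpace D) (e : k) :
    evalLin D Q hQ hDQ y = e ↔ Q.adicValuation ((y : κ) - algebraMap k κ e) < 1 :=
  evalFun_eq_iff D Q hQ hDQ y e

/-- `evalLin y = 0` iff `y` vanishes at `Q` -/
theorem evalLin_eq_zero_iff (D : Divisor k κ) (Q : Place k κ) (hQ : Q.deg = 1) (hDQ : D Q ≤ 0)
    (y : riemannRochSpace D) :
    evalLin D Q hQ hDQ y = 0 ↔ Q.adicValuation (y : κ) < 1 := by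
  rw [evalLin_eq_iff, map_zero, sub_zero]

/-- evaluation along a family of places -/
def evalFamily (D : Divisor k κ) {ι : Type*} (a : ι → Place k κ) (ha : ∀ s, (a s).deg = 1)
    (hD : ∀ s, D (a s) ≤ 0) : riemannRochSpace D →ₗ[k] (ι → k) :=
  LinearMap.pi fun s => evalLin D (a s) (ha s) (hD s)

@[simp]
theorem evalFamily_apply (D : Divisor k κ) {ι : Type*} (a : ι → Place k κ)
    (ha : ∀ s, (a s).deg = 1) (hD : ∀ s, D (a s) ≤ 0) (y : riemannRochSpace D) (s : ι) :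
    evalFamily D a ha hD y s = evalLin D (a s) (ha s) (hD s) y := rfl

/-- **evaluation along an injective finite family is onto**, explicit constant -/
theorem evalFamily_surjective_of_riemann_eq {g : ℕ} (hdeg1 : ∀ v : Place k κ, v.deg = 1) {c : ℤ}
    (hc : ∀ D : Divisor k κ, c ≤ Divisor.degree D → (ell D : ℤ) = Divisor.degree D + 1 - g)
    (D : Divisor k κ) {ι : Type*} [Fintype ι] (a : ι → Place k κ) (hinj : Function.Injective a)
    (hD : ∀ s, D (a s) = 0) (hdeg : c + Fintype.card ι ≤ Divisor.degree D) :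
    Function.Surjective (evalFamily D a (fun s => hdeg1 (a s)) (fun s => (hD s).le)) := by
  classical
  intro t
  set T : Finset (Place k κ) := Finset.univ.image a with hT
  have hcard : T.card = Fintype.card ι := by
    rw [hT, Finset.card_image_of_injective _ hinj, Finset.card_univ]
  have hDT : ∀ Q ∈ T, D Q = 0 := by
    intro Q hQ
    obtain ⟨s, -, rfl⟩ := Finset.mem_image.mp hQ
    exact hD s
  obtain ⟨y, hy, hval⟩ := eval_surjective_of_riemann_eq hdeg1 hc D T hDT (by rw [hcard]; exact hdeg)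
    (fun Q => if h : ∃ s, a s = Q then t (Classical.choose h) else 0)
  refine ⟨⟨y, hy⟩, funext fun s => ?_⟩
  rw [evalFamily_apply, evalLin_eq_iff]
  have h1 := hval (a s) (Finset.mem_image.mpr ⟨s, Finset.mem_univ _, rfl⟩)
  have hex : ∃ s', a s' = a s := ⟨s, rfl⟩
  rw [dif_pos hex] at h1
  have h2 : Classical.choose hex = s := hinj (Classical.choose_spec hex)
  rw [h2] at h1
  exact h1

/-- **evaluation along an injective finite family is onto `L(D)` for `deg D` large** -/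
theorem exists_evalFamily_surjective {g : ℕ} (h : RiemannHyp k κ g) {ι : Type*} [Fintype ι] :
    ∃ c : ℤ, ∀ (D : Divisor k κ) (a : ι → Place k κ) (_ : Function.Injective a)
      (hD : ∀ s, D (a s) = 0), c + Fintype.card ι ≤ Divisor.degree D →
      Function.Surjective (evalFamily D a (fun s => h.deg_one (a s)) (fun s => (hD s).le)) := by
  obtain ⟨c, hc⟩ := h.riemann_eq
  exact ⟨c, fun D a hinj hD hdeg =>
    evalFamily_surjective_of_riemann_eq h.deg_one hc D a hinj hD hdeg⟩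

/-! ### two curves -/

section Pair

variable {κ₁ : Type v} {κ₂ : Type v} [Field κ₁] [Field κ₂] [Algebra k κ₁] [Algebra k κ₂]

/-- **the two-curve corollary**, existential form: simultaneous prescription of the values at the
nodes on both curves, and the dimension formula. -/
theorem exists_eval_surjective_pair {g₁ g₂ : ℕ} (h₁ : RiemannHyp k κ₁ g₁)
    (h₂ : RiemannHyp k κ₂ g₂) {ι : Type*} [Fintype ι] :
    ∃ c₁ c₂ : ℤ, ∀ (a1 : ι → Place k κ₁) (a2 : ι → Place k κ₂),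
      Function.Injective a1 → Function.Injective a2 →
      ∀ (D₁ : Divisor k κ₁) (D₂ : Divisor k κ₂), (∀ s, D₁ (a1 s) = 0) → (∀ s, D₂ (a2 s) = 0) →
      c₁ + Fintype.card ι ≤ Divisor.degree D₁ → c₂ + Fintype.card ι ≤ Divisor.degree D₂ →
      (∀ t1 t2 : ι → k, ∃ y1 ∈ riemannRochSpace D₁, ∃ y2 ∈ riemannRochSpace D₂, ∀ s,
        (a1 s).adicValuation (y1 - algebraMap k κ₁ (t1 s)) < 1 ∧
        (a2 s).adicValuation (y2 - algebraMap k κ₂ (t2 s)) < 1) ∧
      ((Module.finrank k (riemannRochSpace D₁) : ℤ) + Module.finrank k (riemannRochSpace D₂) =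
        Divisor.degree D₁ + Divisor.degree D₂ + 2 - g₁ - g₂) := by
  obtain ⟨c₁, hc₁⟩ := h₁.riemann_eq
  obtain ⟨c₂, hc₂⟩ := h₂.riemann_eq
  refine ⟨c₁, c₂, fun a1 a2 hinj1 hinj2 D₁ D₂ hD₁ hD₂ hdeg₁ hdeg₂ => ⟨fun t1 t2 => ?_, ?_⟩⟩
  · obtain ⟨y1, hy1⟩ := evalFamily_surjective_of_riemann_eq h₁.deg_one hc₁ D₁ a1 hinj1 hD₁ hdeg₁ t1
    obtain ⟨y2, hy2⟩ := evalFamily_surjective_of_riemann_eq h₂.deg_one hc₂ D₂ a2 hinj2 hD₂ hdeg₂ t2
    refine ⟨y1, y1.2, y2, y2.2, fun s => ⟨?_, ?_⟩⟩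
    · have := congrFun hy1 s
      rw [evalFamily_apply, evalLin_eq_iff] at this
      exact this
    · have := congrFun hy2 s
      rw [evalFamily_apply, evalLin_eq_iff] at this
      exact this
  · have e1 := hc₁ D₁ (by have : (0 : ℤ) ≤ Fintype.card ι := Int.natCast_nonneg _; linarith)
    have e2 := hc₂ D₂ (by have : (0 : ℤ) ≤ Fintype.card ι := Int.natCast_nonneg _; linarith)
    unfold ell at e1 e2
    rw [e1, e2]
    ring

/-- the pair of evaluations on `L(D₁) × L(D₂)` -/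
def evalPair (D₁ : Divisor k κ₁) (D₂ : Divisor k κ₂) {ι : Type*} (a1 : ι → Place k κ₁)
    (a2 : ι → Place k κ₂) (ha1 : ∀ s, (a1 s).deg = 1) (ha2 : ∀ s, (a2 s).deg = 1)
    (hD₁ : ∀ s, D₁ (a1 s) ≤ 0) (hD₂ : ∀ s, D₂ (a2 s) ≤ 0) :
    (riemannRochSpace D₁ × riemannRochSpace D₂) →ₗ[k] ((ι → k) × (ι → k)) :=
  LinearMap.prodMap (evalFamily D₁ a1 ha1 hD₁) (evalFamily D₂ a2 ha2 hD₂)

@[simp]
theorem evalPair_apply (D₁ : Divisor k κ₁) (D₂ : Divisor k κ₂) {ι : Type*} (a1 : ι → Place k κ₁)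
    (a2 : ι → Place k κ₂) (ha1 : ∀ s, (a1 s).deg = 1) (ha2 : ∀ s, (a2 s).deg = 1)
    (hD₁ : ∀ s, D₁ (a1 s) ≤ 0) (hD₂ : ∀ s, D₂ (a2 s) ≤ 0)
    (y : riemannRochSpace D₁ × riemannRochSpace D₂) :
    evalPair D₁ D₂ a1 a2 ha1 ha2 hD₁ hD₂ y =
      (evalFamily D₁ a1 ha1 hD₁ y.1, evalFamily D₂ a2 ha2 hD₂ y.2) := rfl

/-- **the two-curve corollary**, linear-map form: `v ↦ (evx · v, evz · v)` is onto
`(ι → k) × (ι → k)`, and `dim (L(D₁) × L(D₂)) = deg D₁ + deg D₂ + 2 - g₁ - g₂`. -/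
theorem exists_evalPair_surjective {g₁ g₂ : ℕ} (h₁ : RiemannHyp k κ₁ g₁)
    (h₂ : RiemannHyp k κ₂ g₂) {ι : Type*} [Fintype ι] :
    ∃ c₁ c₂ : ℤ, ∀ (a1 : ι → Place k κ₁) (a2 : ι → Place k κ₂),
      Function.Injective a1 → Function.Injective a2 →
      ∀ (D₁ : Divisor k κ₁) (D₂ : Divisor k κ₂) (hD₁ : ∀ s, D₁ (a1 s) = 0)
        (hD₂ : ∀ s, D₂ (a2 s) = 0),
      c₁ + Fintype.card ι ≤ Divisor.degree D₁ → c₂ + Fintype.card ι ≤ Divisor.degree D₂ →
      Function.Surjective (evalPair D₁ D₂ a1 a2 (fun _ => h₁.deg_one _) (fun _ => h₂.deg_one _)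
        (fun s => (hD₁ s).le) (fun s => (hD₂ s).le)) ∧
      ((Module.finrank k (riemannRochSpace D₁ × riemannRochSpace D₂) : ℤ) =
        Divisor.degree D₁ + Divisor.degree D₂ + 2 - g₁ - g₂) := by
  obtain ⟨c₁, hc₁⟩ := h₁.riemann_eq
  obtain ⟨c₂, hc₂⟩ := h₂.riemann_eq
  refine ⟨c₁, c₂, fun a1 a2 hinj1 hinj2 D₁ D₂ hD₁ hD₂ hdeg₁ hdeg₂ => ⟨?_, ?_⟩⟩
  · rintro ⟨t1, t2⟩
    obtain ⟨y1, hy1⟩ := evalFamily_surjective_of_riemann_eq h₁.deg_one hc₁ D₁ a1 hinj1 hD₁ hdeg₁ t1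
    obtain ⟨y2, hy2⟩ := evalFamily_surjective_of_riemann_eq h₂.deg_one hc₂ D₂ a2 hinj2 hD₂ hdeg₂ t2
    exact ⟨(y1, y2), by rw [evalPair_apply, hy1, hy2]⟩
  · have := h₁.finite D₁
    have := h₂.finite D₂
    have e1 := hc₁ D₁ (by have : (0 : ℤ) ≤ Fintype.card ι := Int.natCast_nonneg _; linarith)
    have e2 := hc₂ D₂ (by have : (0 : ℤ) ≤ Fintype.card ι := Int.natCast_nonneg _; linarith)
    unfold ell at e1 e2
    rw [Module.finrank_prod]
    push_cast
    rw [e1, e2]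
    ring

/-! ### the glued subspace -/

/-- the difference of the two evaluations on `L(D₁) × L(D₂)` -/
def gluedDiff (D₁ : Divisor k κ₁) (D₂ : Divisor k κ₂) {ι : Type*} (a1 : ι → Place k κ₁)
    (a2 : ι → Place k κ₂) (ha1 : ∀ s, (a1 s).deg = 1) (ha2 : ∀ s, (a2 s).deg = 1)
    (hD₁ : ∀ s, D₁ (a1 s) ≤ 0) (hD₂ : ∀ s, D₂ (a2 s) ≤ 0) :
    (riemannRochSpace D₁ × riemannRochSpace D₂) →ₗ[k] (ι → k) :=
  (evalFamily D₁ a1 ha1 hD₁).comp (LinearMap.fst k _ _) -
    (evalFamily D₂ a2 ha2 hD₂).comp (LinearMap.snd k _ _)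

/-- the pairs `(y₁, y₂) ∈ L(D₁) × L(D₂)` glued at the nodes: `y₁(a1 s) = y₂(a2 s)` for all `s` -/
def glued (D₁ : Divisor k κ₁) (D₂ : Divisor k κ₂) {ι : Type*} (a1 : ι → Place k κ₁)
    (a2 : ι → Place k κ₂) (ha1 : ∀ s, (a1 s).deg = 1) (ha2 : ∀ s, (a2 s).deg = 1)
    (hD₁ : ∀ s, D₁ (a1 s) ≤ 0) (hD₂ : ∀ s, D₂ (a2 s) ≤ 0) :
    Submodule k (riemannRochSpace D₁ × riemannRochSpace D₂) :=
  LinearMap.ker (gluedDiff D₁ D₂ a1 a2 ha1 ha2 hD₁ hD₂)

theorem mem_glued_iff (D₁ : Divisor k κ₁) (D₂ : Divisor k κ₂) {ι : Type*} (a1 : ι → Place k κ₁)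
    (a2 : ι → Place k κ₂) (ha1 : ∀ s, (a1 s).deg = 1) (ha2 : ∀ s, (a2 s).deg = 1)
    (hD₁ : ∀ s, D₁ (a1 s) ≤ 0) (hD₂ : ∀ s, D₂ (a2 s) ≤ 0)
    (y : riemannRochSpace D₁ × riemannRochSpace D₂) :
    y ∈ glued D₁ D₂ a1 a2 ha1 ha2 hD₁ hD₂ ↔
      ∀ s, ∃ e : k, (a1 s).adicValuation ((y.1 : κ₁) - algebraMap k κ₁ e) < 1 ∧
        (a2 s).adicValuation ((y.2 : κ₂) - algebraMap k κ₂ e) < 1 := by
  unfold glued gluedDiff
  rw [LinearMap.mem_ker, LinearMap.sub_apply, sub_eq_zero, LinearMap.comp_apply,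
    LinearMap.comp_apply, LinearMap.fst_apply, LinearMap.snd_apply]
  constructor
  · intro h s
    refine ⟨evalLin D₁ (a1 s) (ha1 s) (hD₁ s) y.1, evalLin_spec _ _ _ _ _, ?_⟩
    have h1 := congrFun h s
    rw [evalFamily_apply, evalFamily_apply] at h1
    rw [h1]
    exact evalLin_spec _ _ _ _ _
  · intro h
    funext s
    obtain ⟨e, h1, h2⟩ := h s
    rw [evalFamily_apply, evalFamily_apply, (evalLin_eq_iff _ _ _ _ _ e).mpr h1,
      (evalLin_eq_iff _ _ _ _ _ e).mpr h2]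

/-- **dimension of the glued subspace**, explicit constants -/
theorem finrank_glued_of_riemann_eq {g₁ g₂ : ℕ}
    (hfin₁ : ∀ D : Divisor k κ₁, Module.Finite k (riemannRochSpace D))
    (hfin₂ : ∀ D : Divisor k κ₂, Module.Finite k (riemannRochSpace D))
    (hdeg1₁ : ∀ v : Place k κ₁, v.deg = 1) (hdeg1₂ : ∀ v : Place k κ₂, v.deg = 1) {c₁ c₂ : ℤ}
    (hc₁ : ∀ D : Divisor k κ₁, c₁ ≤ Divisor.degree D → (ell D : ℤ) = Divisor.degree D + 1 - g₁)
    (hc₂ : ∀ D : Divisor k κ₂, c₂ ≤ Divisor.degree D → (ell D : ℤ) = Divisor.degree D + 1 - g₂)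
    {ι : Type*} [Fintype ι] (a1 : ι → Place k κ₁) (a2 : ι → Place k κ₂)
    (hinj1 : Function.Injective a1) (D₁ : Divisor k κ₁) (D₂ : Divisor k κ₂)
    (hD₁ : ∀ s, D₁ (a1 s) = 0) (hD₂ : ∀ s, D₂ (a2 s) ≤ 0)
    (hdeg₁ : c₁ + Fintype.card ι ≤ Divisor.degree D₁) (hdeg₂ : c₂ ≤ Divisor.degree D₂) :
    ((Module.finrank k (glued D₁ D₂ a1 a2 (fun _ => hdeg1₁ _) (fun _ => hdeg1₂ _)
        (fun s => (hD₁ s).le) hD₂) : ℤ) =
        Divisor.degree D₁ + Divisor.degree D₂ + 2 - g₁ - g₂ - Fintype.card ι) := by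
  have := hfin₁ D₁
  have := hfin₂ D₂
  have e1 := hc₁ D₁ (by have : (0 : ℤ) ≤ Fintype.card ι := Int.natCast_nonneg _; linarith)
  have e2 := hc₂ D₂ hdeg₂
  unfold ell at e1 e2
  set φ := gluedDiff D₁ D₂ a1 a2 (fun _ => hdeg1₁ _) (fun _ => hdeg1₂ _)
    (fun s => (hD₁ s).le) hD₂ with hφ
  have hsurj : Function.Surjective φ := by
    intro t
    obtain ⟨y1, hy1⟩ := evalFamily_surjective_of_riemann_eq hdeg1₁ hc₁ D₁ a1 hinj1 hD₁ hdeg₁ t
    refine ⟨(y1, 0), ?_⟩
    rw [hφ]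
    unfold gluedDiff
    rw [LinearMap.sub_apply, LinearMap.comp_apply, LinearMap.comp_apply, LinearMap.fst_apply,
      LinearMap.snd_apply, map_zero, sub_zero, hy1]
  have hrk := LinearMap.finrank_range_add_finrank_ker φ
  rw [LinearMap.range_eq_top.mpr hsurj, finrank_top, Module.finrank_pi, Module.finrank_prod] at hrk
  have hrk' : (Fintype.card ι : ℤ) + Module.finrank k (LinearMap.ker φ) =
      Module.finrank k (riemannRochSpace D₁) + Module.finrank k (riemannRochSpace D₂) := by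
    exact_mod_cast hrk
  unfold glued
  rw [← hφ]
  linarith

/-- **dimension of the glued subspace**: for `deg D₁ ≥ c₁ + δ`, `deg D₂ ≥ c₂`,
`dim {(y₁, y₂) ∈ L(D₁) × L(D₂) glued at the δ nodes} = deg D₁ + deg D₂ + 2 - g₁ - g₂ - δ`. -/
theorem exists_finrank_glued {g₁ g₂ : ℕ} (h₁ : RiemannHyp k κ₁ g₁)
    (h₂ : RiemannHyp k κ₂ g₂) {ι : Type*} [Fintype ι] :
    ∃ c₁ c₂ : ℤ, ∀ (a1 : ι → Place k κ₁) (a2 : ι → Place k κ₂),
      Function.Injective a1 →
      ∀ (D₁ : Divisor k κ₁) (D₂ : Divisor k κ₂) (hD₁ : ∀ s, D₁ (a1 s) = 0)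
        (hD₂ : ∀ s, D₂ (a2 s) ≤ 0),
      c₁ + Fintype.card ι ≤ Divisor.degree D₁ → c₂ ≤ Divisor.degree D₂ →
      ((Module.finrank k (glued D₁ D₂ a1 a2 (fun _ => h₁.deg_one _) (fun _ => h₂.deg_one _)
        (fun s => (hD₁ s).le) hD₂) : ℤ) =
        Divisor.degree D₁ + Divisor.degree D₂ + 2 - g₁ - g₂ - Fintype.card ι) := by
  obtain ⟨c₁, hc₁⟩ := h₁.riemann_eq
  obtain ⟨c₂, hc₂⟩ := h₂.riemann_eq
  exact ⟨c₁, c₂, fun a1 a2 hinj1 D₁ D₂ hD₁ hD₂ hdeg₁ hdeg₂ =>
    finrank_glued_of_riemann_eq h₁.finite h₂.finite h₁.deg_one h₂.deg_one hc₁ hc₂ a1 a2 hinj1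
      D₁ D₂ hD₁ hD₂ hdeg₁ hdeg₂⟩

end Pair

end Fermat.Agent.S34.GlueG.EvalSurj
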